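import Mathlib
import Fermat.Agent.S17.DescentShape
import Fermat.Agent.S17.H.Pairing.Exit
import Fermat.Agent.S17.H.Pos.SpecialExit

/-!
# S17, strand H: the exit from the exits of the blocks (hypothesis-parametrised)

`heightDescent_of_blocks` is the exit of strand H with the three open inputs as hypotheses,
for ANY place-height `H` and pair term `D` on the places of `Fb N`:

* `hD12 : Pairing.ChowLD (infPlace N) H D` — blocks D1 (Chow) and D2 (global distance formula),
  through `Pairing.chowLD_plH` for the heights of record `Glob.plH`, `Glob.plD`;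
* `hH0`, `hNor` — the place-height is non-negative and has the bounded-orbit Northcott
  property (block F5d);
* `hF4` — block F4: on the fine classes the height of the reduced divisor is bounded by the
  quasi-quadratic function `Pairing.quad` of block E.

Everything else is on `main`: block E (`Pairing.exists_quad_JZero`), the special locus
(`Pos.exists_descent_height_of_pos`) and the descent shape
(`DescentShape.heightDescent_of_parallelogram`).
-/

set_option autoImplicit false

namespace Fermat.Agent.S17.H

open AlgebraicCurve ModularCurve Fermat.Agent.S17 Fermat.Agent.S17.R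
open Fermat.Agent.S17.H.MovingEff

local notation "Qb" => AlgebraicClosure ℚ
local notation "Fb" => modularFunctionFieldBar

/-- **Exit of strand H from the exits of blocks D, E, F.** -/
theorem heightDescent_of_blocks (N : ℕ) [NeZero N]
    (H : Place Qb (Fb N) → ℝ) (D : Place Qb (Fb N) → Place Qb (Fb N) → ℝ)
    (hD : ∀ a b, D a b = D b a) (hD12 : Pairing.ChowLD (infPlace N) H D)
    (hH0 : ∀ P, 0 ≤ H P)
    (hNor : ∀ (B : ℝ) (d : ℕ), {P : Place Qb (Fb N) | H P ≤ B ∧
      ∃ s : Finset (Place Qb (Fb N)), s.card ≤ d ∧
        ∀ σ : Qb ≃ₐ[ℚ] Qb, arithmeticGalois (modularFunctionFieldFull N) σ • P ∈ s}.Finite)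
    (hF4 : ∀ n₀ : ℕ,
      Pairing.Moving (ptClass (Fermat.Agent.S30.HeckeInputs.trdeg_bar N) (infPlace N)) n₀ →
      Pairing.PrincipalBound (ptClass (Fermat.Agent.S30.HeckeInputs.trdeg_bar N) (infPlace N))
        (Pairing.lamOff (infPlace N) H D) →
      ∃ C₁ : ℝ, ∀ x : JZero N, redDeg (infPlace N) x = gR Qb (Fb N) →
        redDeg (infPlace N) (-x) = gR Qb (Fb N) →
        ((redDiv (infPlace N) x).sum fun P n => (n : ℝ) * H P)
          ≤ Pairing.quad (ptClass (Fermat.Agent.S30.HeckeInputs.trdeg_bar N) (infPlace N))
              (Pairing.lamOff (infPlace N) H D) n₀ x + C₁) :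
    HeightDescent N := by
  obtain ⟨n₀, hMOV, hPR, C, hq⟩ := Pairing.exists_quad_JZero N H D hD hD12
  obtain ⟨C₁, hpos⟩ := hF4 n₀ hMOV hPR
  obtain ⟨h, C', h0, hN, hpar⟩ :=
    Pos.exists_descent_height_of_pos N _ C hq H hH0 hNor C₁ hpos
  exact DescentShape.heightDescent_of_parallelogram h C' h0 hN hpar

end Fermat.Agent.S17.H
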