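import Mathlib
import Fermat.Agent.S17.H.ExitOfBlocks
import Fermat.Agent.S17.H.Pairing.OfGlobMul
import Fermat.Agent.S17.H.Glob.PlaceHeight
import Fermat.Agent.S17.H.F.FineBound

/-!
# S17, strand H: the exit from the exits of the leaves (hypothesis-parametrised, heights of record)

`heightDescent_of_exits` is the exit of strand H for the heights of record
`Glob.plH ev φ m₀` and `Glob.plD ev φ`, with the six inputs that are not yet closed as
hypotheses, each VERBATIM the conclusion of its leaf: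

* `hNor` — F5d (`Pos/PlaceNorthcott.lean`): bounded-orbit Northcott for `plH ev φ m₀`;
* `hD1`  — D1 (`Glob.chow`);
* `hD2`  — D2 (`Glob.ld_global`, for bases of `L(k m₀ ∞)`; `Glob.secD ev φ = Glob.plD ev φ`);
* `hF1`  — F1 (`F.ResidualBound`), `hF3` — F3 (`F.FibreBound t`), `hF2` — F2
  (`F.FibrePairBound t`), for a function `t` regular off `∞` with a pole of order `≥ 2`.

Everything else is on `main`: blocks E (`Pairing.chowLD_of_chow_ld`, `exists_quad_JZero`),
F4 (`F.fine_bound_weak`), F5 (`Pos.exists_descent_height_of_pos`) and the descent shape.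
-/

set_option autoImplicit false

namespace Fermat.Agent.S17.H

open AlgebraicCurve ModularCurve Fermat.Agent.S17 Fermat.Agent.S17.R
open Fermat.Agent.S17.H.MovingEff Fermat.Agent.S17.H.Glob

local notation "Qb" => AlgebraicClosure ℚ
local notation "Fb" => modularFunctionFieldBar

/-- **Exit of strand H from the exits of the leaves**, for the heights of record. -/
theorem heightDescent_of_exits (N : ℕ) [NeZero N] {r : ℕ} (φ : Fin r → Fb N) {m₀ : ℕ}
    (hm₀ : 0 < m₀) (ev : Place Qb (Fb N) → Fb N → Qb) {t : Fb N}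
    (hreg : ∀ v : Place Qb (Fb N), v ≠ infPlace N → 0 ≤ v.ord t)
    (hpole : (infPlace N).ord t ≤ -2)
    (hNor : ∀ (B : ℝ) (d : ℕ), {P : Place Qb (Fb N) | plH ev φ m₀ P ≤ B ∧
      ∃ s : Finset (Place Qb (Fb N)), s.card ≤ d ∧
        ∀ σ : Qb ≃ₐ[ℚ] Qb, arithmeticGalois (modularFunctionFieldFull N) σ • P ∈ s}.Finite)
    (hD1 : ∀ (M n : ℕ) (ψ : Fin n → Fb N), LinearIndependent Qb ψ →
      (∀ i, ψ i ∈ riemannRochSpace ((M : ℤ) • Finsupp.single (infPlace N) (1 : ℤ))) →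
      ∃ C : ℝ, ∀ c : Fin n → Qb, c ≠ 0 →
        |(∑ᶠ v ∈ {v : Place Qb (Fb N) | v ≠ infPlace N},
            ((v.ord (∑ i, c i • ψ i) : ℤ) : ℝ) * hT (fun i => ev v (φ i))) / (m₀ : ℝ)
          - hT c| ≤ C)
    (hD2 : ∀ k : ℕ, 0 < k → ∀ (n : ℕ) (ψ : Fin n → Fb N), LinearIndependent Qb ψ →
      Submodule.span Qb (Set.range ψ)
        = riemannRochSpace (((k * m₀ : ℕ) : ℤ) • Finsupp.single (infPlace N) (1 : ℤ)) →
      ∃ C : ℝ, ∀ c : Fin n → Qb, c ≠ 0 → ∀ Q : Place Qb (Fb N), Q ≠ infPlace N →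
        Q.ord (∑ i, c i • ψ i) = 0 →
        |(∑ᶠ v ∈ {v : Place Qb (Fb N) | v ≠ infPlace N},
            ((v.ord (∑ i, c i • ψ i) : ℤ) : ℝ) * plD ev φ v Q)
          - hT c
          + (((infPlace N).ord (∑ i, c i • ψ i) : ℤ) : ℝ)
            * (hT (fun i => ev Q (φ i)) / (m₀ : ℝ))| ≤ C)
    (hF1 : F.ResidualBound (infPlace N) (plH ev φ m₀) (plD ev φ))
    (hF3 : F.FibreBound t (plH ev φ m₀) (plD ev φ))
    (hF2 : F.FibrePairBound t (plH ev φ m₀) (plD ev φ)) : HeightDescent N :=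
  heightDescent_of_blocks N (plH ev φ m₀) (plD ev φ) (plD_symm ev φ)
    (Pairing.chowLD_of_chow_ld (Fermat.Agent.S30.HeckeInputs.trdeg_bar N) (infPlace N) ev φ hm₀
      (plD ev φ) hD1 hD2)
    (plH_nonneg ev φ m₀) hNor
    (fun _ hMOV hPR =>
      F.fine_bound_weak (Fermat.Agent.S30.HeckeInputs.trdeg_bar N) (infPlace N) hreg hpole
        (plH ev φ m₀) (plH_nonneg ev φ m₀) (plD ev φ) (plD_symm ev φ) hPR hMOV hF1 hF3 hF2)

end Fermat.Agent.S17.H
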