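import Mathlib
import Fermat.Agent.S17.H.ExitOfExits
import Fermat.Agent.S17.H.X.GoodX
import Fermat.Agent.S17.H.Glob.Chow
import Fermat.Agent.S17.H.Glob.ComparePl
import Fermat.Agent.S17.H.Glob.LDGlobal
import Fermat.Agent.S17.H.Glob.Fibre
import Fermat.Agent.S17.H.Pos.PlaceNorthcott
import Fermat.Agent.S17.H.F.ResidualInst
import Fermat.Agent.S17.H.F.Fibres
import Fermat.Agent.S17.H.F.FibrePair

/-!
# S17, strand H: the exit from the last open leaf (the global Vandermonde bound, D3)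

Everything of strand H except leaf D3 is discharged here from `main`:

* the coordinate `x` and the good family `φ` of `L(k n0 ∞)` (`GoodX.exists_x_phi`);
* D1 `Glob.chow`, D2 `Glob.LDGlobal.ld_global`, E `Pairing.chowLD_of_chow_ld`;
* D4 `Glob.exists_fibre_lower` with the comparison `Glob.exists_hQ_le_hT_valVec`;
* F2 `F.fibrePairBound_of_chowLD`, F3 `F.fibreBound_plH`, F4 / F5 through
  `heightDescent_of_exits`, F5d `Pos.PlaceNorthcott.plH_evalAt_orbit_northcott`.

`heightDescent_of_residual` : `HeightDescent N` from F1 (`F.ResidualBound`) for the heights of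
record of every good family `φ` of `L(m0 ∞)`, `m0` large.

`heightDescent_of_vdm` : `HeightDescent N` from the global Vandermonde bound (the exit of D3) in
the literal shape of the binder `hD3` of `F.residualBound_plH`, behind a threshold on `m0`.
-/

set_option autoImplicit false

namespace Fermat.Agent.S17.H.ExitOfResidual

open AlgebraicCurve ModularCurve Fermat.Agent.S17 Fermat.Agent.S17.R
open Fermat.Agent.S17.H.Glob

local notation "Qb" => AlgebraicClosure ℚ
local notation "Fb" => modularFunctionFieldBar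

/-- **Exit of strand H from F1** (the residual bound for the heights of record). -/
theorem heightDescent_of_residual (N : ℕ) [NeZero N]
    (hF1 : ∃ n₀ : ℕ, ∀ m0 : ℕ, n₀ ≤ m0 → ∀ {r : ℕ} (φ : Fin r → Fb N), LinearIndependent Qb φ →
      Submodule.span Qb (Set.range φ)
        = riemannRochSpace ((m0 : ℤ) • Finsupp.single (infPlace N) (1 : ℤ)) →
      (∃ i, φ i = 1) → (∃ i, (infPlace N).ord (φ i) = -(m0 : ℤ)) →
      F.ResidualBound (infPlace N) (plH evalAt φ m0) (plD evalAt φ)) :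
    HeightDescent N := by
  classical
  have htr := Fermat.Agent.S30.HeckeInputs.trdeg_bar N
  have hev : IsEval (evalAt : Place Qb (Fb N) → Fb N → Qb) := isEval_evalAt htr
  -- the coordinate `x` and the family `φ`
  obtain ⟨n0, x, hn0, -, hxL, hxord, k₀, hk⟩ := GoodX.exists_x_phi N
  have hxR : RegOff (infPlace N) x := RootsSum.regOff_of_mem_L hxL
  have hxreg : ∀ v : Place Qb (Fb N), v ≠ infPlace N → 0 ≤ v.ord x := fun v hv =>
    RegOff.ord_nonneg hxR hv
  have hn0pos : 0 < n0 := by omega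
  -- the thresholds
  obtain ⟨n₂, hld⟩ := LDGlobal.ld_global htr (infPlace N) hev
  obtain ⟨n₃, hres⟩ := hF1
  obtain ⟨n₄, hfl⟩ := exists_fibre_lower htr (infPlace N) (Eval.mem_regOff_of_mem_L hxL)
    hn0pos hxord hev
  obtain ⟨k, hk0, hk1, hk2, hk3, hk4⟩ :
      ∃ k : ℕ, k₀ ≤ k ∧ 1 ≤ k ∧ n₂ ≤ k ∧ n₃ ≤ k ∧ n₄ ≤ k :=
    ⟨max k₀ (max 1 (max n₂ (max n₃ n₄))), by omega, by omega, by omega, by omega, by omega⟩
  have hkm : k ≤ k * n0 := Nat.le_mul_of_pos_right k hn0pos
  obtain ⟨r, φ, i1, hfix, hli, hspan, h1, hi1, -, htop, htop1, -⟩ := hk k hk0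
  have hm0 : 0 < k * n0 := Nat.mul_pos (by omega) hn0pos
  have hφL : ∀ i, φ i ∈ riemannRochSpace
      (((k * n0 : ℕ) : ℤ) • Finsupp.single (infPlace N) (1 : ℤ)) := fun i => by
    rw [← hspan]
    exact Submodule.subset_span ⟨i, rfl⟩
  have hφR : ∀ i, RegOff (infPlace N) (φ i) := fun i => RootsSum.regOff_of_mem_L (hφL i)
  -- F5d: Northcott
  have hnc : φ (Fin.last r) ∉ Set.range (algebraMap Qb (Fb N)) := by
    rintro ⟨c, hc⟩
    rw [← hc, Fermat.Agent.S24.FF.ord_algebraMap] at htop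
    have : (0 : ℤ) < ((k * n0 : ℕ) : ℤ) := by exact_mod_cast hm0
    omega
  have hNor := Pos.PlaceNorthcott.plH_evalAt_orbit_northcott N φ hm0.ne' h1
    (hfix (Fin.last r)) hnc
  -- D1, D2
  have hD1 : ∀ (M n : ℕ) (ψ : Fin n → Fb N), LinearIndependent Qb ψ →
      (∀ i, ψ i ∈ riemannRochSpace ((M : ℤ) • Finsupp.single (infPlace N) (1 : ℤ))) →
      ∃ C : ℝ, ∀ c : Fin n → Qb, c ≠ 0 →
        |(∑ᶠ v ∈ {v : Place Qb (Fb N) | v ≠ infPlace N},
            ((v.ord (∑ i, c i • ψ i) : ℤ) : ℝ) * hT (fun i => evalAt v (φ i)))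
              / ((k * n0 : ℕ) : ℝ)
          - hT c| ≤ C :=
    fun M n ψ hψ hψM =>
      chow htr (infPlace N) hev φ hφL ⟨i1, h1⟩ ⟨Fin.last r, htop⟩ hm0 ψ hψ hψM
  have hD2 := fun (k' : ℕ) (hk' : 0 < k') (n : ℕ) (ψ : Fin n → Fb N)
      (hψ : LinearIndependent Qb ψ)
      (hψs : Submodule.span Qb (Set.range ψ) = riemannRochSpace
        (((k' * (k * n0) : ℕ) : ℤ) • Finsupp.single (infPlace N) (1 : ℤ))) =>
    hld (k * n0) (hk2.trans hkm) k' hk' φ ψ hli hspan hψ hψs
  -- F2 from `ChowLD`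
  have hD12 := Pairing.chowLD_of_chow_ld htr (infPlace N) evalAt φ hm0 (plD evalAt φ) hD1 hD2
  have hF2 := F.fibrePairBound_of_chowLD htr (infPlace N) hxreg
    (by rw [hxord]; omega) (plH evalAt φ (k * n0)) (plD evalAt φ) hD12
  -- F1: the hypothesis
  have hF1' := hres (k * n0) (hk3.trans hkm) φ hli hspan ⟨i1, h1⟩ ⟨Fin.last r, htop⟩
  -- F3 from the fibre inequality
  have hφ0 : ∀ a, φ a ≠ 0 := fun a => hli.ne_zero a
  have hne : ∀ a b, a ≠ b → -((k * n0 : ℕ) : ℤ) < (infPlace N).ord (φ a) ∨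
      -((k * n0 : ℕ) : ℤ) < (infPlace N).ord (φ b) := by
    intro a b hab
    by_cases ha : a = Fin.last r
    · right
      have := htop1 b (fun hb => hab (ha.trans hb.symm))
      omega
    · left
      have := htop1 a ha
      omega
  obtain ⟨C₁, hcmp⟩ := exists_hQ_le_hT_valVec htr (infPlace N) hev φ hφR ⟨i1, h1⟩
    ⟨Fin.last r, htop⟩ hm0 hxR (le_of_eq hxord.symm) hn0pos
  have hF3 := F.fibreBound_plH htr (infPlace N) hev hxreg hn0pos hxord hm0 φ hφL ⟨i1, h1⟩
    ⟨Fin.last r, htop⟩ (hfl (k * n0) (hk4.trans hkm) φ hspan hφ0 hne C₁ hcmp)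
  exact heightDescent_of_exits N φ hm0 evalAt hxreg (by rw [hxord]; omega) hNor hD1 hD2
    hF1' hF3 hF2

/-- **Exit of strand H from the global Vandermonde bound** (the exit of leaf D3, in the shape
of the binder `hD3` of `F.residualBound_plH` behind a threshold on `m0`). -/
theorem heightDescent_of_vdm (N : ℕ) [NeZero N]
    (hvdm : ∃ n₀ : ℕ, ∀ m0 : ℕ, n₀ ≤ m0 → ∀ {r : ℕ} (τ : Fin r → Fb N), LinearIndependent Qb τ →
      Submodule.span Qb (Set.range τ)
        = riemannRochSpace ((m0 : ℤ) • Finsupp.single (infPlace N) (1 : ℤ)) →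
      (∃ i, τ i = 1) → (∃ i, (infPlace N).ord (τ i) = -(m0 : ℤ)) →
      ∀ (M n : ℕ) (ψ : Fin (n + 1) → Fb N), LinearIndependent Qb ψ →
        (∀ i, ψ i ∈ riemannRochSpace ((M : ℤ) • Finsupp.single (infPlace N) (1 : ℤ))) →
        ∃ C : ℝ, ∀ a : Fin n → Place Qb (Fb N), Function.Injective a →
          (∀ j, a j ≠ infPlace N) →
          Fermat.Agent.S17.H.F.minorVec evalAt ψ a ≠ 0 →
          hT (Fermat.Agent.S17.H.F.minorVec evalAt ψ a) ≤
            (M : ℝ) * ∑ j, plH evalAt τ m0 (a j)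
              - ∑ i, ∑ j ∈ Finset.Ioi i, plD evalAt τ (a i) (a j) + C) :
    HeightDescent N := by
  have htr := Fermat.Agent.S30.HeckeInputs.trdeg_bar N
  have hev : IsEval (evalAt : Place Qb (Fb N) → Fb N → Qb) := isEval_evalAt htr
  obtain ⟨n₀, h⟩ := hvdm
  refine heightDescent_of_residual N ⟨max n₀ 1, fun m0 hm0 r φ hli hspan hφ1 hφtop => ?_⟩
  have hm0pos : 0 < m0 := lt_of_lt_of_le zero_lt_one ((le_max_right n₀ 1).trans hm0)
  have hφL : ∀ i, φ i ∈ riemannRochSpace
      ((m0 : ℤ) • Finsupp.single (infPlace N) (1 : ℤ)) := fun i => by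
    rw [← hspan]
    exact Submodule.subset_span ⟨i, rfl⟩
  exact F.residualBound_plH htr (infPlace N) hev φ m0
    (fun M n ψ hψ hψM => chow htr (infPlace N) hev φ hφL hφ1 hφtop hm0pos ψ hψ hψM)
    (h m0 ((le_max_left n₀ 1).trans hm0) φ hli hspan hφ1 hφtop)

end Fermat.Agent.S17.H.ExitOfResidual
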