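import Mathlib
import Fermat.Agent.S17.H.ExitOfResidual
import Fermat.Agent.S17.H.Glob.VandermondeExit

/-!
# Program MW (statement S17), strand H: THE EXIT

`Exit.heightDescent` : for every level `N` the Mordell-Weil group `MW N` of `J_0(N)` carries a
descent height — the `HeightDescent N` of the contract (`Fermat/Agent/S17/Contract.lean`).
Neither primality of `N` nor divisibility of `J_0(N)` is used.

The proof is `ExitOfResidual.heightDescent_of_vdm` (the whole assembly of strand H: the good
coordinate and family of `X/GoodX`, Chow D1, the global distance formula D2, the fibre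
inequality D4, the pairing of block E, positivity and Northcott of block F) applied to the
global Vandermonde bound `Glob.VandermondeExit.vdm_exit` (leaf D3).
-/

set_option autoImplicit false

namespace Fermat.Agent.S17.H.Exit

open AlgebraicCurve ModularCurve Fermat.Agent.S17 Fermat.Agent.S17.R
open Fermat.Agent.S17.H.Glob

/-- **Exit of strand H**: `MW N` has a descent height for arbitrarily large primes. -/
theorem heightDescent (N : ℕ) [NeZero N] : HeightDescent N := by
  obtain ⟨n₀, h⟩ := VandermondeExit.vdm_exit (Fermat.Agent.S30.HeckeInputs.trdeg_bar N)
    (infPlace N) (isEval_evalAt (Fermat.Agent.S30.HeckeInputs.trdeg_bar N))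
  exact ExitOfResidual.heightDescent_of_vdm N
    ⟨n₀, fun m0 hm0 _ τ hli hsp _ _ => h m0 hm0 τ hli hsp⟩

/-- The exit of strand H with the binder list of the first contract rehearsal (the hypotheses
are not used). -/
theorem heightDescent_of_divisible (N : ℕ) [NeZero N] (_hN : N.Prime) (_hN5 : 5 ≤ N)
    (_hD : Divisible N) : HeightDescent N :=
  heightDescent N

end Fermat.Agent.S17.H.Exit
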