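import Fermat.Agent.S17.DescentShape
import Fermat.Agent.S17.H.Pos.SpecialTate

/-!
# S17, strand H: the seam between block F and the exit (hypothesis-parametrised)

`heightDescent_of_fine` is the exit of strand H with the outputs of blocks E and F as
hypotheses:

* block E: a function `q` on `JZero N` with the quasi-parallelogram law (constant `C`);
* block F4: a predicate `Fine` on classes and a function `ht` (the height of the reduced
  representatives) with `0 ≤ ht x ≤ q x + C₁` on fine classes;
* block F5b: a finite set `T` of translates such that every class has a fine translate;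
* block F5c (Northcott): for `t ∈ T` the rational classes `x` with `x + t` fine and
  `ht (x + t) ≤ B` are finite in number.

No limit is taken and nothing else is needed: the height is `q + C / 2` restricted to `MW N`.
-/

set_option autoImplicit false

open ModularCurve AlgebraicCurve
open ModularCurve ModularCurve.JZero

namespace Fermat.Agent.S17.H

/-- **The F → X seam.**  Strand H's exit from the outputs of blocks E and F. -/
theorem heightDescent_of_fine {N : ℕ} [NeZero N] (q : JZero N → ℝ) (C : ℝ)
    (hq : ∀ x y : JZero N, |q (x + y) + q (x - y) - 2 * (q x + q y)| ≤ C)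
    (Fine : JZero N → Prop) (ht : JZero N → ℝ) (C₁ : ℝ)
    (hpos : ∀ x : JZero N, Fine x → ht x ≤ q x + C₁)
    (ht0 : ∀ x : JZero N, Fine x → 0 ≤ ht x)
    (T : Finset (JZero N)) (hT : ∀ x : JZero N, ∃ t ∈ T, Fine (x + t))
    (hfin : ∀ t ∈ T, ∀ B : ℝ,
      {x : ↥(MW N) | Fine ((x : JZero N) + t) ∧ ht ((x : JZero N) + t) ≤ B}.Finite) :
    HeightDescent N := by
  obtain ⟨h, C', h0, hN, H⟩ :=
    Pos.exists_height_of_fine_translates (MW N) q C hq Fine ht C₁ hpos ht0 T hT hfin
  exact DescentShape.heightDescent_of_parallelogram h C' h0 hN H

end Fermat.Agent.S17.H
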